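import Mathlib.GroupTheory.GroupAction.Quotient
import Mathlib.LinearAlgebra.Dimension.Constructions
import Mathlib.LinearAlgebra.FiniteDimensional.Lemmas
import Mathlib.LinearAlgebra.Dimension.Free
import Mathlib.SetTheory.Cardinal.Finite

/-!
# Invariant functions on a finite `G`-set: dimension = number of orbits

Package L of the S20 plan (helper26).
-/

set_option autoImplicit false

namespace Fermat.Agent.S20.H26

variable (K : Type*) [Field K] (G : Type*) [Group G] (X : Type*) [MulAction G X]

/-- The `K`-subspace of `G`-invariant functions `X → K`. -/
def invariantFunctions : Submodule K (X → K) where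
  carrier := {v | ∀ (g : G) (x : X), v (g • x) = v x}
  add_mem' := fun {a b} ha hb g x => by
    simp only [Pi.add_apply]
    rw [ha g x, hb g x]
  zero_mem' := fun _ _ => rfl
  smul_mem' := fun c {a} ha g x => by
    simp only [Pi.smul_apply]
    rw [ha g x]

variable {K G X}

theorem mem_invariantFunctions {v : X → K} :
    v ∈ invariantFunctions K G X ↔ ∀ (g : G) (x : X), v (g • x) = v x := Iff.rfl

variable (K G X)

/-- Invariant functions are the same as functions on the orbit space. -/
noncomputable def orbitFunEquiv :
    (MulAction.orbitRel.Quotient G X → K) ≃ₗ[K] invariantFunctions K G X where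
  toFun f := ⟨fun x => f (Quotient.mk'' x), fun g x => by
    have : (Quotient.mk'' (g • x) : MulAction.orbitRel.Quotient G X) = Quotient.mk'' x :=
      Quotient.sound' ((MulAction.orbitRel_apply).mpr (MulAction.mem_orbit x g))
    simp only [this]⟩
  map_add' f f' := rfl
  map_smul' c f := rfl
  invFun v := fun q => Quotient.liftOn' q v.1 (fun a b hab => by
    rw [MulAction.orbitRel_apply] at hab
    obtain ⟨g, rfl⟩ := hab
    exact v.2 g b)
  left_inv f := by
    funext q
    induction q using Quotient.inductionOn' with
    | h x => rfl
  right_inv v := by
    apply Subtype.ext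
    funext x
    rfl

/-- The dimension of the space of invariant functions on a finite `G`-set is the number of
orbits. -/
theorem finrank_invariantFunctions [Finite X] :
    Module.finrank K (invariantFunctions K G X) = Nat.card (MulAction.orbitRel.Quotient G X) := by
  classical
  let : Fintype (MulAction.orbitRel.Quotient G X) := Fintype.ofFinite _
  rw [← LinearEquiv.finrank_eq (orbitFunEquiv K G X), Module.finrank_pi, Nat.card_eq_fintype_card]

end Fermat.Agent.S20.H26
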