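/- S20 package L: invariant vectors and orbits (helper26). -/
import Fermat.Agent.S20.Defs
import Fermat.Agent.S20.H26.LinAlg
set_option autoImplicit false

open UpperHalfPlane ModularForm CongruenceSubgroup Matrix.SpecialLinearGroup Filter
open scoped MatrixGroups ModularForm Manifold Topology

noncomputable section

namespace Fermat.Agent.S20.H26

open Fermat.Agent.S20

/-- `invOf N g` is the space of functions invariant under the cyclic group generated by `g`. -/
theorem invOf_eq_invariantFunctions (N : ℕ) (g : SL(2, ℤ)) :
    invOf N g = invariantFunctions ℂ (Subgroup.zpowers g) (X N) := by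
  ext w
  constructor
  · intro hw h c
    obtain ⟨h, hh⟩ := h
    obtain ⟨n, rfl⟩ := Subgroup.mem_zpowers_iff.mp hh
    change w ((g ^ n) • c) = w c
    have hpos : ∀ (m : ℕ) (c : X N), w ((g ^ m) • c) = w c := by
      intro m
      induction m with
      | zero => intro c; simp
      | succ m ih =>
        intro c
        rw [pow_succ', mul_smul]
        exact (hw _).trans (ih c)
    have hinv : ∀ c : X N, w (g⁻¹ • c) = w c := by
      intro c
      have := hw (g⁻¹ • c)
      rw [smul_inv_smul] at this
      exact this.symm
    have hneg : ∀ (m : ℕ) (c : X N), w ((g⁻¹ ^ m) • c) = w c := by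
      intro m
      induction m with
      | zero => intro c; simp
      | succ m ih =>
        intro c
        rw [pow_succ', mul_smul]
        exact (hinv _).trans (ih c)
    obtain ⟨m, rfl | rfl⟩ := Int.eq_nat_or_neg n
    · rw [zpow_natCast]
      exact hpos m c
    · rw [zpow_neg, zpow_natCast, ← inv_pow]
      exact hneg m c
  · intro hw c
    exact hw ⟨g, Subgroup.mem_zpowers g⟩ c

/-- L. The space of `g`-invariant vectors on `X N` has dimension the number of orbits of `g`. -/
theorem finrank_invOf (N : ℕ) [NeZero N] (g : SL(2, ℤ)) :
    Module.finrank ℂ (invOf N g) = Nat.card (Orb N g) := by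
  rw [invOf_eq_invariantFunctions]
  exact finrank_invariantFunctions ℂ (Subgroup.zpowers g) (X N)

end Fermat.Agent.S20.H26
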